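/-
S56, W4 case C, BLOCK KT (field side, T).  Sub-architect: helper91.  Deliverable: `FieldTProp p`
(`S56/W4/C/Defs.lean`).  This file: the exact statements of the leaves which mention `ρbar`.
The pure field-side leaves are in `Lib/FFL/FB/KTDefs.lean` and `Lib/FFL/FB/UnitDefs.lean`.

PLAN.  `s : SSStruct p ρbar`, `c` a cocycle with values in `ad⁰`, `I₁ = I1 s`.
 (BRIDGE) there is `π1` with `π1^(p²-1) = -p`, `I₁ = stabI P π1`, `θ(τ) = τ π1/π1` of exact order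
          `p² - 1` modulo `𝔪`, and the symmetric functions of `(ψ(τ)^m, ψ(τ)^(pm))` (elements of
          `𝔽_p ⊆ k`) are congruent to those of `(θ^m, θ^(pm))`.
 (COC)    on `I₁` the entries of `c` are smooth characters; `c(σ⁻¹ g σ) = ρbar(σ)⁻¹ c(g) ρbar(σ)`
          for `g ∈ I₁`; `c₁₁ = - c₀₀`.
 (FROB)   some Frobenius `φ` at `P` has `ρbar(φ)` anti-diagonal in the basis of `s`.
 Diagonal entries: `X = {l ∘ c₀₀}`; `τ`-invariant (`ρbar(τ)` diagonal), `φ`-anti-invariant (FROB);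
   CHEAP from `CheapProp` (`S' = ker l`), SHARP from `SharpProp` (`S` = an `𝔽_{p²}`-hyperplane of
   `k` avoiding `c₀₀(g₀)`, when `c₀₀(I₁)` is an `𝔽_p`-line); `EtaStatement` ⟹ `c₀₀ = 0` on `I₁`;
   `β = 1`.
 Off-diagonal entries: `χ = l ∘ c₀₁`: `w χ(τ⁻¹ g τ) = l(ψ(τ)^(2p) c₀₁(g))`  (`w = ψ(τ)^(p+1)` in
   `k`: determinant cyclotomic); `ψ(τ)^(2p)` is a root of `X² - t X + n`, `t = ψ² + ψ^(2p)`,
   `n = ψ^(2p+2)`; (BRIDGE, `m = 2`) + `EStatement` ⟹ `GoodChar`.  Same for `c₁₀` with `ψ(τ)²`.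
-/
import Fermat.Agent.S56.W4.C.Defs
import Fermat.Agent.Lib.FFL.FB.KTDefs

set_option autoImplicit false

namespace Fermat.Agent.S56.SS

open Fermat.Agent.F4 ExtCitation Fermat.Agent.FFL Fermat.Agent.FFL.FB

local notation "Kb" => AlgebraicClosure ℚ
local notation "GK" => (AlgebraicClosure ℚ ≃ₐ[ℚ] AlgebraicClosure ℚ)

variable (p : ℕ) [Fact p.Prime]

/-- **KT-BRIDGE**: from the supersingular structure to the standard uniformiser `π1`. -/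
def KTBridgeProp : Prop :=
  ∀ (k : Type) [Field k] [Finite k] (ρbar : ResidualGaloisRep k) (s : SSStruct p ρbar),
    p ≠ 2 → (p : k) = 0 →
    ∃ π1 : Kb, IsPi1 p π1 ∧ (∀ σ : GK, σ ∈ I1 s ↔ σ ∈ stabI (Pp p) π1) ∧
      TameGen p (Pp p) π1 s.τ ∧
      ∀ (m : ℕ) (t n : ℤ), (t : k) = (s.ψ s.τ) ^ m + (s.ψ s.τ) ^ (p * m) →
        (n : k) = (s.ψ s.τ) ^ (m * (p + 1)) →
        (t : Kb) - ((s.τ π1 / π1) ^ m + (s.τ π1 / π1) ^ (p * m)) ∈ (Pp p).nonunits ∧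
        (n : Kb) - (s.τ π1 / π1) ^ (m * (p + 1)) ∈ (Pp p).nonunits

/-- **KT-FROB**: some Frobenius at `P` acts anti-diagonally in the eigenbasis of inertia. -/
def KTFrobProp : Prop :=
  ∀ (k : Type) [Field k] [Finite k] (ρbar : ResidualGaloisRep k) (s : SSStruct p ρbar),
    p ≠ 2 → (p : k) = 0 →
    ∃ φ : GK, φ ∈ Dp p ∧ (∀ a ∈ Pp p, φ a - a ^ p ∈ (Pp p).nonunits) ∧
      ∃ x y : k, ρbar.ρ φ (s.b 0) = x • s.b 1 ∧ ρbar.ρ φ (s.b 1) = y • s.b 0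

/-- **KT-COC**: the cocycle relations for the endomorphism-valued function of a cocycle of
`ad⁰ ρbar`: cocycle identity, smoothness, trace zero. -/
def KTCocProp : Prop :=
  ∀ (k : Type) [Field k] [Finite k] (ρbar : ResidualGaloisRep k)
    (c : ↥(Z1 levelsAll (ad0 ρbar))),
    (∀ g h : GK, ((c : GQ → ad0 ρbar) (g * h) : ↥(ad0Sub ρbar)).1 =
      ((c : GQ → ad0 ρbar) g : ↥(ad0Sub ρbar)).1 +
        ρbar.ρ g * ((c : GQ → ad0 ρbar) h : ↥(ad0Sub ρbar)).1 * ρbar.ρ g⁻¹) ∧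
    (∃ F : IntermediateField ℚ Kb, FiniteDimensional ℚ F ∧
      ∀ h ∈ F.fixingSubgroup, ((c : GQ → ad0 ρbar) h : ↥(ad0Sub ρbar)).1 = 0) ∧
    ∀ g : GK, LinearMap.trace k ρbar.V ((c : GQ → ad0 ρbar) g : ↥(ad0Sub ρbar)).1 = 0

end Fermat.Agent.S56.SS
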