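/-
S56, W4 case C, block KT, leaf KT-COC (helper82): the cocycle relations for the
endomorphism-valued function of a level-constant cocycle of `ad⁰ ρbar`.
-/
import Fermat.Agent.S56.W4.C.KT.Defs

set_option autoImplicit false

namespace Fermat.Agent.S56.SS

open Fermat.Agent.F4 ExtCitation Fermat.Agent.FFL Fermat.Agent.FFL.FB

local notation "Kb" => AlgebraicClosure ℚ
local notation "GK" => (AlgebraicClosure ℚ ≃ₐ[ℚ] AlgebraicClosure ℚ)

/-- **KT-COC**. -/
theorem ktCocProp : KTCocProp := by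
  intro k _ _ ρbar c
  have hone : (c : GQ → ad0 ρbar) 1 = 0 :=
    groupCohomology.cocycles₁_map_one ⟨(c : GQ → ad0 ρbar), c.2.1⟩
  refine ⟨fun g h => ?_, ?_, fun g => ?_⟩
  · have h1 := (groupCohomology.mem_cocycles₁_iff (c : GQ → ad0 ρbar)).mp c.2.1 g h
    have h2 : ((c : GQ → ad0 ρbar) (g * h) : ↥(ad0Sub ρbar)).1 =
        (((ad0 ρbar).ρ g ((c : GQ → ad0 ρbar) h) + (c : GQ → ad0 ρbar) g : ad0 ρbar) :
          ↥(ad0Sub ρbar)).1 := by rw [h1]
    rw [h2, add_comm, mul_assoc]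
    rfl
  · obtain ⟨U, ⟨F, hF, -, rfl⟩, hU⟩ := c.2.2
    refine ⟨F, hF, fun h hh => ?_⟩
    have h3 := hU 1 h hh
    rw [one_mul, hone] at h3
    rw [h3]
    rfl
  · exact ((c : GQ → ad0 ρbar) g : ↥(ad0Sub ρbar)).2

end Fermat.Agent.S56.SS
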