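/-
S56, W4 case C, block KT, assembly (helper82), part 1: linear algebra of a supersingular structure
(`ρbar(I)` diagonal, Frobenius anti-diagonal), conjugation formula for cocycles, rationality.
-/
import Fermat.Agent.S56.W4.C.KT.Coc
import Fermat.Agent.S56.W3.Arch
import Fermat.Agent.S59.DefCond.StrictOrdArith

set_option autoImplicit false

namespace Fermat.Agent.S56.SS

open Fermat.Agent.F4 ExtCitation Fermat.Agent.FFL Fermat.Agent.FFL.FB

local notation "Kb" => AlgebraicClosure ℚ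
local notation "GK" => (AlgebraicClosure ℚ ≃ₐ[ℚ] AlgebraicClosure ℚ)

variable {p : ℕ} [Fact p.Prime] {k : Type} [Field k] {ρbar : ResidualGaloisRep k}

/-- The diagonal coefficients of `ρbar σ`, `σ` in inertia. -/
def dco (s : SSStruct p ρbar) (σ : GK) (i : Fin 2) : k :=
  if i = 0 then s.ψ σ else (s.ψ σ) ^ p

theorem dco_zero (s : SSStruct p ρbar) (σ : GK) : dco s σ 0 = s.ψ σ := rfl

theorem dco_one (s : SSStruct p ρbar) (σ : GK) : dco s σ 1 = (s.ψ σ) ^ p := rfl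

theorem rho_b (s : SSStruct p ρbar) {σ : GK} (hσ : σ ∈ Ip p) (i : Fin 2) :
    ρbar.ρ σ (s.b i) = dco s σ i • s.b i := by
  fin_cases i
  · exact s.diag0 σ hσ
  · exact s.diag1 σ hσ

theorem psi_ne_zero (s : SSStruct p ρbar) {σ : GK} (hσ : σ ∈ Ip p) : s.ψ σ ≠ 0 := by
  obtain ⟨n, hn⟩ := s.gen σ hσ
  rw [hn]
  exact pow_ne_zero n s.ne_zero

theorem dco_ne_zero (s : SSStruct p ρbar) {σ : GK} (hσ : σ ∈ Ip p) (i : Fin 2) :
    dco s σ i ≠ 0 := by
  fin_cases i
  · exact psi_ne_zero s hσ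
  · exact pow_ne_zero p (psi_ne_zero s hσ)

theorem rho_eq_one_of_mem_I1 (s : SSStruct p ρbar) {g : GK} (hg : g ∈ I1 s) :
    ρbar.ρ g = 1 := by
  apply s.b.ext
  intro i
  rw [rho_b s hg.1 i, Module.End.one_apply]
  have h1 : s.ψ g = 1 := hg.2
  fin_cases i
  · show dco s g 0 • s.b 0 = s.b 0
    rw [dco_zero, h1, one_smul]
  · show dco s g 1 • s.b 1 = s.b 1
    rw [dco_one, h1, one_pow, one_smul]

theorem repr_rho (s : SSStruct p ρbar) {σ : GK} (hσ : σ ∈ Ip p) (v : ρbar.V) (i : Fin 2) :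
    s.b.repr (ρbar.ρ σ v) i = dco s σ i * s.b.repr v i := by
  have h1 : (s.b.coord i).comp (ρbar.ρ σ) = dco s σ i • s.b.coord i := by
    apply s.b.ext
    intro j
    rw [LinearMap.comp_apply, rho_b s hσ j, map_smul, LinearMap.smul_apply, smul_eq_mul,
      smul_eq_mul, Module.Basis.coord_apply, Module.Basis.repr_self, Finsupp.single_apply]
    split_ifs with h
    · rw [h]
    · rw [mul_zero, mul_zero]
  have h2 := LinearMap.congr_fun h1 v
  rw [LinearMap.comp_apply, LinearMap.smul_apply, smul_eq_mul, Module.Basis.coord_apply,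
    Module.Basis.coord_apply] at h2
  exact h2

theorem rho_inv_apply (σ : GK) (v : ρbar.V) : ρbar.ρ σ (ρbar.ρ σ⁻¹ v) = v := by
  rw [← Module.End.mul_apply, ← map_mul, mul_inv_cancel, map_one, Module.End.one_apply]

theorem rho_inv_apply' (σ : GK) (v : ρbar.V) : ρbar.ρ σ⁻¹ (ρbar.ρ σ v) = v := by
  rw [← Module.End.mul_apply, ← map_mul, inv_mul_cancel, map_one, Module.End.one_apply]

theorem repr_rho_inv (s : SSStruct p ρbar) {σ : GK} (hσ : σ ∈ Ip p) (v : ρbar.V) (i : Fin 2) :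
    s.b.repr (ρbar.ρ σ⁻¹ v) i = (dco s σ i)⁻¹ * s.b.repr v i := by
  have h1 := repr_rho s hσ (ρbar.ρ σ⁻¹ v) i
  rw [rho_inv_apply] at h1
  rw [h1, ← mul_assoc, inv_mul_cancel₀ (dco_ne_zero s hσ i), one_mul]

/-- Entries of a conjugate by an element of inertia. -/
theorem ent_conj_inertia (s : SSStruct p ρbar) (M : Module.End k ρbar.V) {σ : GK}
    (hσ : σ ∈ Ip p) (i j : Fin 2) :
    s.b.repr ((ρbar.ρ σ⁻¹ * M * ρbar.ρ σ) (s.b j)) i =
      dco s σ j * (dco s σ i)⁻¹ * s.b.repr (M (s.b j)) i := by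
  rw [Module.End.mul_apply, Module.End.mul_apply, rho_b s hσ j, map_smul, map_smul, map_smul,
    Finsupp.smul_apply, smul_eq_mul, repr_rho_inv s hσ, mul_assoc]

/-- The conjugation formula for a cocycle at an element acting trivially. -/
theorem conj_formula (C : GK → Module.End k ρbar.V)
    (hcoc : ∀ g h : GK, C (g * h) = C g + ρbar.ρ g * C h * ρbar.ρ g⁻¹)
    {g : GK} (hg : ρbar.ρ g = 1) (σ : GK) :
    C (σ⁻¹ * g * σ) = ρbar.ρ σ⁻¹ * C g * ρbar.ρ σ := by
  have hginv : ρbar.ρ g⁻¹ = 1 := by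
    have h := map_mul ρbar.ρ g⁻¹ g
    rw [inv_mul_cancel, map_one, hg, mul_one] at h
    exact h.symm
  have h0 := hcoc σ⁻¹ σ
  rw [inv_mul_cancel, inv_inv] at h0
  have hC1 : C 1 = 0 := by
    have h := hcoc 1 1
    rw [mul_one, inv_one, map_one, one_mul, mul_one] at h
    exact left_eq_add.mp h
  rw [hC1] at h0
  have h1 := hcoc (σ⁻¹ * g) σ
  have h2 := hcoc σ⁻¹ g
  rw [inv_inv] at h2
  rw [h1, h2, mul_inv_rev, inv_inv, map_mul, map_mul, hg, hginv, mul_one, one_mul]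
  have h3 : C σ⁻¹ + ρbar.ρ σ⁻¹ * C g * ρbar.ρ σ + ρbar.ρ σ⁻¹ * C σ * ρbar.ρ σ =
      ρbar.ρ σ⁻¹ * C g * ρbar.ρ σ + (C σ⁻¹ + ρbar.ρ σ⁻¹ * C σ * ρbar.ρ σ) := by abel
  rw [h3, ← h0, add_zero]

/-- A cocycle is additive on elements acting trivially. -/
theorem coc_add (C : GK → Module.End k ρbar.V)
    (hcoc : ∀ g h : GK, C (g * h) = C g + ρbar.ρ g * C h * ρbar.ρ g⁻¹)
    {g : GK} (hg : ρbar.ρ g = 1) (h : GK) : C (g * h) = C g + C h := by
  have hginv : ρbar.ρ g⁻¹ = 1 := by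
    have h := map_mul ρbar.ρ g⁻¹ g
    rw [inv_mul_cancel, map_one, hg, mul_one] at h
    exact h.symm
  rw [hcoc, hg, hginv, one_mul, mul_one]

/-- The trace in the basis of `s`. -/
theorem trace_eq_ent (s : SSStruct p ρbar) (M : Module.End k ρbar.V) :
    LinearMap.trace k ρbar.V M = s.b.repr (M (s.b 0)) 0 + s.b.repr (M (s.b 1)) 1 := by
  rw [LinearMap.trace_eq_matrix_trace k s.b M, Matrix.trace_fin_two, LinearMap.toMatrix_apply,
    LinearMap.toMatrix_apply]

/-- Entries of a conjugate by an anti-diagonal automorphism. -/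
theorem ent_conj_swap (s : SSStruct p ρbar) (M : Module.End k ρbar.V) (φ : GK) (x y : k)
    (h0 : ρbar.ρ φ (s.b 0) = x • s.b 1) (h1 : ρbar.ρ φ (s.b 1) = y • s.b 0) :
    s.b.repr ((ρbar.ρ φ⁻¹ * M * ρbar.ρ φ) (s.b 0)) 0 = s.b.repr (M (s.b 1)) 1 ∧
    s.b.repr ((ρbar.ρ φ⁻¹ * M * ρbar.ρ φ) (s.b 1)) 1 = s.b.repr (M (s.b 0)) 0 := by
  have hx : x ≠ 0 := by
    intro hx
    rw [hx, zero_smul] at h0
    have h := rho_inv_apply' (ρbar := ρbar) φ (s.b 0)
    rw [h0, map_zero] at h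
    exact s.b.ne_zero 0 h.symm
  have hy : y ≠ 0 := by
    intro hy
    rw [hy, zero_smul] at h1
    have h := rho_inv_apply' (ρbar := ρbar) φ (s.b 1)
    rw [h1, map_zero] at h
    exact s.b.ne_zero 1 h.symm
  have hi1 : ρbar.ρ φ⁻¹ (s.b 1) = x⁻¹ • s.b 0 := by
    have h := rho_inv_apply' (ρbar := ρbar) φ (s.b 0)
    rw [h0, map_smul] at h
    rw [← h, smul_smul, inv_mul_cancel₀ hx, one_smul]
  have hi0 : ρbar.ρ φ⁻¹ (s.b 0) = y⁻¹ • s.b 1 := by
    have h := rho_inv_apply' (ρbar := ρbar) φ (s.b 1)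
    rw [h1, map_smul] at h
    rw [← h, smul_smul, inv_mul_cancel₀ hy, one_smul]
  have hrep : ∀ v : ρbar.V, s.b.repr (ρbar.ρ φ⁻¹ v) 0 = x⁻¹ * s.b.repr v 1 ∧
      s.b.repr (ρbar.ρ φ⁻¹ v) 1 = y⁻¹ * s.b.repr v 0 := by
    intro v
    have hv : v = s.b.repr v 0 • s.b 0 + s.b.repr v 1 • s.b 1 := by
      conv_lhs => rw [← s.b.sum_repr v, Fin.sum_univ_two]
    have h2 : ρbar.ρ φ⁻¹ v = (s.b.repr v 0 * y⁻¹) • s.b 1 + (s.b.repr v 1 * x⁻¹) • s.b 0 := by
      conv_lhs => rw [hv]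
      rw [map_add, map_smul, map_smul, hi0, hi1, smul_smul, smul_smul]
    rw [h2]
    constructor
    · rw [map_add, map_smul, map_smul, Finsupp.add_apply, Finsupp.smul_apply,
        Finsupp.smul_apply, Module.Basis.repr_self, Module.Basis.repr_self,
        Finsupp.single_apply, Finsupp.single_apply]
      simp [mul_comm]
    · rw [map_add, map_smul, map_smul, Finsupp.add_apply, Finsupp.smul_apply,
        Finsupp.smul_apply, Module.Basis.repr_self, Module.Basis.repr_self,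
        Finsupp.single_apply, Finsupp.single_apply]
      simp [mul_comm]
  constructor
  · rw [Module.End.mul_apply, Module.End.mul_apply, h0, map_smul, map_smul, map_smul,
      Finsupp.smul_apply, smul_eq_mul, (hrep _).1, ← mul_assoc, mul_inv_cancel₀ hx, one_mul]
  · rw [Module.End.mul_apply, Module.End.mul_apply, h1, map_smul, map_smul, map_smul,
      Finsupp.smul_apply, smul_eq_mul, (hrep _).2, ← mul_assoc, mul_inv_cancel₀ hy, one_mul]

/-- The determinant of `ρbar σ`, `σ` in inertia. -/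
theorem det_rho_inertia (s : SSStruct p ρbar) {σ : GK} (hσ : σ ∈ Ip p) :
    LinearMap.det (ρbar.ρ σ) = (s.ψ σ) ^ (p + 1) := by
  rw [← LinearMap.det_toMatrix s.b, Matrix.det_fin_two, LinearMap.toMatrix_apply,
    LinearMap.toMatrix_apply, LinearMap.toMatrix_apply, LinearMap.toMatrix_apply,
    rho_b s hσ 0, rho_b s hσ 1, map_smul, map_smul, Finsupp.smul_apply, Finsupp.smul_apply,
    Finsupp.smul_apply, Finsupp.smul_apply, Module.Basis.repr_self, Module.Basis.repr_self,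
    dco_zero, dco_one]
  simp [pow_succ, mul_comm]

/-- An element of a field of characteristic `p` fixed by Frobenius is an integer. -/
theorem exists_int_of_pow_eq (hpk : (p : k) = 0) (x : k) (hx : x ^ p = x) :
    ∃ t : ℤ, (t : k) = x := by
  have hp : p.Prime := Fact.out
  have : CharP k p := (CharP.charP_iff_prime_eq_zero hp).mpr hpk
  have h1 : x ∈ (⊥ : Subfield k) := (Subfield.mem_bot_iff_pow_eq_self k p).mpr hx
  rw [← ZMod.fieldRange_castHom_eq_bot p] at h1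
  obtain ⟨r, hr⟩ := h1
  refine ⟨(r.val : ℤ), ?_⟩
  rw [← hr]
  simp

end Fermat.Agent.S56.SS
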