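/-
S56, W4 case C, block KT, assembly (helper82), part 2: the characters `l ∘ c_ij` of `I₁`:
additivity, smoothness, conjugation by inertia and by Frobenius, CHEAP and SHARP in the form
of `Lib/FFL/FB/KTDefs.lean`.
-/
import Fermat.Agent.S56.W4.C.KT.AsmAux

set_option autoImplicit false

namespace Fermat.Agent.S56.SS

open Fermat.Agent.F4 ExtCitation Fermat.Agent.FFL Fermat.Agent.FFL.FB

local notation "Kb" => AlgebraicClosure ℚ
local notation "GK" => (AlgebraicClosure ℚ ≃ₐ[ℚ] AlgebraicClosure ℚ)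

variable {p : ℕ} [Fact p.Prime] {k : Type} [Field k] {ρbar : ResidualGaloisRep k}

/-- The character `l ∘ c_ij`. -/
noncomputable def chiOf (s : SSStruct p ρbar) (C : GK → Module.End k ρbar.V) (i j : Fin 2)
    (l : k →+ ZMod p) : GK → ZMod p :=
  fun g => l (ent s C i j g)

theorem chiOf_apply (s : SSStruct p ρbar) (C : GK → Module.End k ρbar.V) (i j : Fin 2)
    (l : k →+ ZMod p) (g : GK) : chiOf s C i j l g = l (s.b.repr (C g (s.b j)) i) := rfl

theorem l_natCast_mul (l : k →+ ZMod p) (w : ℕ) (z : k) :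
    l ((w : k) * z) = (w : ZMod p) * l z := by
  rw [← nsmul_eq_mul, map_nsmul, nsmul_eq_mul]

theorem l_intCast_mul (l : k →+ ZMod p) (t : ℤ) (z : k) :
    l ((t : k) * z) = t • l z := by
  rw [← zsmul_eq_mul, map_zsmul]

/-- Elements of inertia acting trivially on `ρbar` are in `I₁`. -/
theorem mem_I1_of_rho_eq_one (s : SSStruct p ρbar) {g : GK} (hg : g ∈ Ip p)
    (h : ρbar.ρ g = 1) : g ∈ I1 s := by
  refine ⟨hg, ?_⟩
  have h1 := s.diag0 g hg
  rw [h, Module.End.one_apply] at h1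
  have h2 : (s.ψ g - 1) • s.b 0 = 0 := by rw [sub_smul, one_smul, ← h1, sub_self]
  rcases smul_eq_zero.mp h2 with h3 | h3
  · exact sub_eq_zero.mp h3
  · exact absurd h3 (s.b.ne_zero 0)

/-- `I₁` is normalised by inertia. -/
theorem conj_mem_I1 (s : SSStruct p ρbar) {g σ : GK} (hg : g ∈ I1 s) (hσ : σ ∈ Ip p) :
    σ⁻¹ * g * σ ∈ I1 s := by
  apply mem_I1_of_rho_eq_one s
  · exact mul_mem (mul_mem (inv_mem hσ) hg.1) hσ
  · rw [map_mul, map_mul, rho_eq_one_of_mem_I1 s hg, mul_one, ← map_mul, inv_mul_cancel,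
      map_one]

section Coc

variable (s : SSStruct p ρbar) (C : GK → Module.End k ρbar.V)
  (hcoc : ∀ g h : GK, C (g * h) = C g + ρbar.ρ g * C h * ρbar.ρ g⁻¹)

include hcoc

theorem ent_mul_of_mem (i j : Fin 2) {g : GK} (hg : g ∈ I1 s) (h : GK) :
    ent s C i j (g * h) = ent s C i j g + ent s C i j h := by
  unfold ent
  rw [coc_add C hcoc (rho_eq_one_of_mem_I1 s hg) h, LinearMap.add_apply, map_add,
    Finsupp.add_apply]

theorem ent_conj (i j : Fin 2) {g σ : GK} (hg : g ∈ I1 s) (hσ : σ ∈ Ip p) :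
    ent s C i j (σ⁻¹ * g * σ) = dco s σ j * (dco s σ i)⁻¹ * ent s C i j g := by
  unfold ent
  rw [conj_formula C hcoc (rho_eq_one_of_mem_I1 s hg) σ, ent_conj_inertia s (C g) hσ i j]

theorem ent_conj_frob (htr : ∀ g : GK, LinearMap.trace k ρbar.V (C g) = 0) (i : Fin 2)
    {g : GK} (hg : g ∈ I1 s) (φ : GK) (x y : k)
    (h0 : ρbar.ρ φ (s.b 0) = x • s.b 1) (h1 : ρbar.ρ φ (s.b 1) = y • s.b 0) :
    ent s C i i (φ⁻¹ * g * φ) = -ent s C i i g := by
  unfold ent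
  rw [conj_formula C hcoc (rho_eq_one_of_mem_I1 s hg) φ]
  have h2 := ent_conj_swap s (C g) φ x y h0 h1
  have h3 := htr g
  rw [trace_eq_ent s (C g)] at h3
  fin_cases i
  · show s.b.repr ((ρbar.ρ φ⁻¹ * C g * ρbar.ρ φ) (s.b 0)) 0 = -s.b.repr (C g (s.b 0)) 0
    rw [h2.1]
    exact eq_neg_of_add_eq_zero_right h3
  · show s.b.repr ((ρbar.ρ φ⁻¹ * C g * ρbar.ρ φ) (s.b 1)) 1 = -s.b.repr (C g (s.b 1)) 1
    rw [h2.2]
    exact eq_neg_of_add_eq_zero_left h3

end Coc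

section Bridge

variable (s : SSStruct p ρbar) (C : GK → Module.End k ρbar.V)
  (hcoc : ∀ g h : GK, C (g * h) = C g + ρbar.ρ g * C h * ρbar.ρ g⁻¹)
  (π1 : Kb) (hI1 : ∀ σ : GK, σ ∈ I1 s ↔ σ ∈ stabI (Pp p) π1)

include hcoc hI1

theorem isCharOn_chiOf (i j : Fin 2) (l : k →+ ZMod p) :
    IsCharOn p (stabI (Pp p) π1) (chiOf s C i j l) := by
  intro g hg h _
  unfold chiOf
  rw [ent_mul_of_mem s C hcoc i j ((hI1 g).mpr hg) h, map_add]

omit hcoc hI1 in
theorem isSmoothChar_chiOf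
    (hsm : ∃ F : IntermediateField ℚ Kb, FiniteDimensional ℚ F ∧
      ∀ h ∈ F.fixingSubgroup, C h = 0) (i j : Fin 2) (l : k →+ ZMod p) :
    IsSmoothChar p (chiOf s C i j l) := by
  obtain ⟨F, hF, hC⟩ := hsm
  refine ⟨F, hF, fun h hh => ?_⟩
  unfold chiOf ent
  rw [hC h hh, LinearMap.zero_apply, map_zero, Finsupp.zero_apply, map_zero]

omit hcoc in
/-- CHEAP in the form of `KTDefs`. -/
theorem cheapAt_chiOf (hch : CheapProp s C) (i j : Fin 2) (l : k →+ ZMod p) :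
    CheapAt p (Pp p) π1 (chiOf s C i j l) := by
  have hp : p.Prime := Fact.out
  have : NeZero p := ⟨hp.ne_zero⟩
  intro g hg hχ
  have hgI : g ∈ I1 s := (hI1 g).mpr hg
  have hsurj : Function.Surjective l := by
    intro z
    refine ⟨(z * (l (ent s C i j g))⁻¹).val • ent s C i j g, ?_⟩
    rw [map_nsmul, nsmul_eq_mul, ZMod.natCast_zmod_val, mul_assoc,
      inv_mul_cancel₀ (show l (ent s C i j g) ≠ 0 from hχ), mul_one]
  have hidx : (AddMonoidHom.ker l).index = p := by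
    rw [AddSubgroup.index_ker, AddMonoidHom.range_eq_top.mpr hsurj,
      Nat.card_congr (AddSubgroup.topEquiv (G := ZMod p)).toEquiv, Nat.card_zmod]
  obtain ⟨x, hxP, hxfix, hx⟩ := hch i j (AddMonoidHom.ker l) hidx g hgI
    (fun h => hχ ((AddMonoidHom.mem_ker).mp h))
  exact ⟨x, hxP, fun h hh hχh => hxfix h ((hI1 h).mpr hh) ((AddMonoidHom.mem_ker).mpr hχh),
    hx.1, hx.2⟩

end Bridge

end Fermat.Agent.S56.SS
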