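/-
S56, W4 case C, block KT, assembly (helper82), part 3: the `𝔽_{p²}`-hyperplane
`S = ker (x ↦ (l x, l (α x)))` of `k` (index `p²`, stable under `α`), and SHARP in the form of
`Lib/FFL/FB/KTDefs.lean`.
-/
import Fermat.Agent.S56.W4.C.KT.AsmChar

set_option autoImplicit false

namespace Fermat.Agent.S56.SS

open Fermat.Agent.F4 ExtCitation Fermat.Agent.FFL Fermat.Agent.FFL.FB

local notation "Kb" => AlgebraicClosure ℚ
local notation "GK" => (AlgebraicClosure ℚ ≃ₐ[ℚ] AlgebraicClosure ℚ)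

variable {p : ℕ} [Fact p.Prime] {k : Type} [Field k]

/-- Trace and norm of `α ∈ 𝔽_{p²}` are integers. -/
theorem alpha_quad (hpk : (p : k) = 0) (α : k) (hα2 : α ^ (p ^ 2) = α) :
    ∃ t n : ℤ, (t : k) = α + α ^ p ∧ (n : k) = α ^ (p + 1) := by
  have hp : p.Prime := Fact.out
  have : CharP k p := (CharP.charP_iff_prime_eq_zero hp).mpr hpk
  have h2 : (α ^ p) ^ p = α := by rw [← pow_mul, ← sq, hα2]
  obtain ⟨t, ht⟩ := exists_int_of_pow_eq hpk (α + α ^ p) (by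
    rw [add_pow_char, h2, add_comm])
  obtain ⟨n, hn⟩ := exists_int_of_pow_eq hpk (α ^ (p + 1)) (by
    rw [pow_succ, mul_pow, h2, mul_comm])
  exact ⟨t, n, ht, hn⟩

/-- The map `x ↦ (l x, l (α x))`. -/
noncomputable def pairHom (α : k) (l : k →+ ZMod p) : k →+ ZMod p × ZMod p :=
  l.prod (l.comp (AddMonoidHom.mulLeft α))

theorem pairHom_apply (α : k) (l : k →+ ZMod p) (x : k) :
    pairHom α l x = (l x, l (α * x)) := rfl

theorem l_alpha_sq (α : k) (l : k →+ ZMod p) (t n : ℤ) (ht : (t : k) = α + α ^ p)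
    (hn : (n : k) = α ^ (p + 1)) (x : k) :
    l (α * (α * x)) = (t : ZMod p) * l (α * x) - (n : ZMod p) * l x := by
  have h1 : α * (α * x) = (t : k) * (α * x) - (n : k) * x := by
    rw [ht, hn, pow_succ]
    ring
  rw [h1, map_sub, l_intCast_mul, l_intCast_mul, zsmul_eq_mul, zsmul_eq_mul]

/-- `X² - t X + n` has no root in `𝔽_p`. -/
theorem quad_no_root (hpk : (p : k) = 0) (α : k) (hα : α ^ p ≠ α) (hα2 : α ^ (p ^ 2) = α)
    (t n : ℤ) (ht : (t : k) = α + α ^ p) (hn : (n : k) = α ^ (p + 1)) (r : ZMod p) :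
    r * r - (t : ZMod p) * r + (n : ZMod p) ≠ 0 := by
  have hp : p.Prime := Fact.out
  have : CharP k p := (CharP.charP_iff_prime_eq_zero hp).mpr hpk
  intro hr0
  have hy : ((ZMod.castHom (dvd_refl p) k) r) ^ p = (ZMod.castHom (dvd_refl p) k) r := by
    rw [← map_pow, ZMod.pow_card]
  have h3 := congrArg (ZMod.castHom (dvd_refl p) k) hr0
  rw [map_add, map_sub, map_mul, map_mul, map_zero, map_intCast, map_intCast] at h3
  generalize (ZMod.castHom (dvd_refl p) k) r = y at h3 hy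
  have h4 : (y - α) * (y - α ^ p) = 0 := by
    rw [ht, hn, pow_succ] at h3
    rw [← h3]
    ring
  rcases mul_eq_zero.mp h4 with h7 | h7
  · rw [sub_eq_zero] at h7
    rw [h7] at hy
    exact hα hy
  · rw [sub_eq_zero] at h7
    rw [h7, ← pow_mul, ← sq, hα2] at hy
    exact hα hy.symm

theorem pair_solve (a b T M u v : ZMod p) (ha : a ≠ 0)
    (hroot : ∀ r : ZMod p, r * r - T * r + M ≠ 0) :
    ∃ c d : ZMod p, c * a + d * b = u ∧ c * b + d * (T * b - M * a) = v := by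
  have hD : a * (T * b - M * a) - b * b ≠ 0 := by
    intro hD
    apply hroot (b * a⁻¹)
    have h1 : a * a * (b * a⁻¹ * (b * a⁻¹) - T * (b * a⁻¹) + M) =
        -(a * (T * b - M * a) - b * b) := by
      field_simp
      ring
    rw [hD, neg_zero] at h1
    rcases mul_eq_zero.mp h1 with h2 | h2
    · exact absurd (mul_self_eq_zero.mp h2) ha
    · exact h2
  refine ⟨(u * (T * b - M * a) - v * b) / (a * (T * b - M * a) - b * b),
    (a * v - b * u) / (a * (T * b - M * a) - b * b), ?_, ?_⟩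
  · rw [div_mul_eq_mul_div, div_mul_eq_mul_div, ← add_div, div_eq_iff hD]
    ring
  · rw [div_mul_eq_mul_div, div_mul_eq_mul_div, ← add_div, div_eq_iff hD]
    ring

theorem pairHom_surjective (hpk : (p : k) = 0) (α : k) (hα : α ^ p ≠ α)
    (hα2 : α ^ (p ^ 2) = α) (l : k →+ ZMod p) (x₀ : k) (hx₀ : l x₀ ≠ 0) :
    Function.Surjective (pairHom α l) := by
  have hp : p.Prime := Fact.out
  have : NeZero p := ⟨hp.ne_zero⟩
  obtain ⟨t, n, ht, hn⟩ := alpha_quad hpk α hα2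
  have hsq : l (α * (α * x₀)) = (t : ZMod p) * l (α * x₀) - (n : ZMod p) * l x₀ :=
    l_alpha_sq α l t n ht hn x₀
  rintro ⟨u, v⟩
  obtain ⟨c, d, h1, h2⟩ := pair_solve (l x₀) (l (α * x₀)) (t : ZMod p) (n : ZMod p) u v hx₀
    (quad_no_root hpk α hα hα2 t n ht hn)
  refine ⟨c.val • x₀ + d.val • (α * x₀), ?_⟩
  rw [pairHom_apply]
  refine Prod.ext ?_ ?_
  · show l (c.val • x₀ + d.val • (α * x₀)) = u
    rw [map_add, map_nsmul, map_nsmul, nsmul_eq_mul, nsmul_eq_mul, ZMod.natCast_zmod_val,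
      ZMod.natCast_zmod_val, h1]
  · show l (α * (c.val • x₀ + d.val • (α * x₀))) = v
    rw [mul_add, mul_smul_comm, mul_smul_comm, map_add, map_nsmul, map_nsmul, nsmul_eq_mul,
      nsmul_eq_mul, ZMod.natCast_zmod_val, ZMod.natCast_zmod_val, hsq, h2]

theorem index_ker_pairHom (hpk : (p : k) = 0) (α : k) (hα : α ^ p ≠ α)
    (hα2 : α ^ (p ^ 2) = α) (l : k →+ ZMod p) (x₀ : k) (hx₀ : l x₀ ≠ 0) :
    (AddMonoidHom.ker (pairHom α l)).index = p ^ 2 := by
  rw [AddSubgroup.index_ker,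
    AddMonoidHom.range_eq_top.mpr (pairHom_surjective hpk α hα hα2 l x₀ hx₀),
    Nat.card_congr (AddSubgroup.topEquiv (G := ZMod p × ZMod p)).toEquiv, Nat.card_prod,
    Nat.card_zmod, sq]

theorem alpha_mul_mem_ker (hpk : (p : k) = 0) (α : k) (hα2 : α ^ (p ^ 2) = α)
    (l : k →+ ZMod p) {z : k} (hz : z ∈ AddMonoidHom.ker (pairHom α l)) :
    α * z ∈ AddMonoidHom.ker (pairHom α l) := by
  obtain ⟨t, n, ht, hn⟩ := alpha_quad hpk α hα2
  rw [AddMonoidHom.mem_ker, pairHom_apply, Prod.mk_eq_zero] at hz ⊢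
  refine ⟨hz.2, ?_⟩
  rw [l_alpha_sq α l t n ht hn z, hz.1, hz.2, mul_zero, mul_zero, sub_zero]

theorem pow_mul_mem_ker (hpk : (p : k) = 0) (α : k) (hα2 : α ^ (p ^ 2) = α)
    (l : k →+ ZMod p) (m : ℕ) {z : k} (hz : z ∈ AddMonoidHom.ker (pairHom α l)) :
    α ^ m * z ∈ AddMonoidHom.ker (pairHom α l) := by
  induction m with
  | zero => rwa [pow_zero, one_mul]
  | succ m ih =>
    rw [pow_succ', mul_assoc]
    exact alpha_mul_mem_ker hpk α hα2 l ih

variable {ρbar : ResidualGaloisRep k}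

/-- `ψ τ` is not in `𝔽_p`. -/
theorem psi_tau_not_fp (s : SSStruct p ρbar) : (s.ψ s.τ) ^ p ≠ s.ψ s.τ := by
  have hp : p.Prime := Fact.out
  intro h
  have h1 : (s.ψ s.τ) ^ (p - 1) = 1 := by
    have h2 : (s.ψ s.τ) ^ (p - 1) * s.ψ s.τ = 1 * s.ψ s.τ := by
      rw [← pow_succ, Nat.sub_add_cancel hp.one_le, h, one_mul]
    exact mul_right_cancel₀ s.ne_zero h2
  have h3 := s.ord (p - 1) (Nat.sub_pos_of_lt hp.one_lt) h1
  have h4 : p ^ 2 = p * p := sq p
  have h5 : 2 ≤ p := hp.two_le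
  have h6 : p * p ≥ 2 * p := Nat.mul_le_mul_right p h5
  omega

/-- SHARP in the form of `KTDefs`, for a generating character of a diagonal entry. -/
theorem sharpAt_chiOf (s : SSStruct p ρbar) (C : GK → Module.End k ρbar.V)
    (hpk : (p : k) = 0) (π1 : Kb) (hI1 : ∀ σ : GK, σ ∈ I1 s ↔ σ ∈ stabI (Pp p) π1)
    (hsh : SharpProp s C) (i : Fin 2) (l₁ : k →+ ZMod p)
    (hgen : ∀ l : k →+ ZMod p, ∃ n : ℤ, ∀ g ∈ stabI (Pp p) π1,
      chiOf s C i i l g = n • chiOf s C i i l₁ g) :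
    SharpAt p (Pp p) π1 (chiOf s C i i l₁) := by
  intro g hg hχ
  have hgI : g ∈ I1 s := (hI1 g).mpr hg
  have hα2 : (s.ψ s.τ) ^ (p ^ 2) = s.ψ s.τ := s.fp2 s.τ s.τ_mem
  have hidx := index_ker_pairHom hpk (s.ψ s.τ) (psi_tau_not_fp s) hα2 l₁
    (ent s C i i g) hχ
  have hstab : ∀ σ ∈ Ip p, ∀ z ∈ AddMonoidHom.ker (pairHom (s.ψ s.τ) l₁),
      s.ψ σ * z ∈ AddMonoidHom.ker (pairHom (s.ψ s.τ) l₁) := by
    intro σ hσ z hz
    obtain ⟨m, hm⟩ := s.gen σ hσ
    rw [hm]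
    exact pow_mul_mem_ker hpk _ hα2 l₁ m hz
  have hnot : ent s C i i g ∉ AddMonoidHom.ker (pairHom (s.ψ s.τ) l₁) := by
    intro h
    rw [AddMonoidHom.mem_ker, pairHom_apply, Prod.mk_eq_zero] at h
    exact hχ h.1
  obtain ⟨x, hxP, hxfix, hx⟩ := hsh i (AddMonoidHom.ker (pairHom (s.ψ s.τ) l₁)) hidx hstab
    g hgI hnot
  refine ⟨x, hxP, fun h hh hχh => hxfix h ((hI1 h).mpr hh) ?_, hx.1, ?_⟩
  · rw [AddMonoidHom.mem_ker, pairHom_apply, Prod.mk_eq_zero]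
    refine ⟨hχh, ?_⟩
    obtain ⟨n, hn⟩ := hgen (l₁.comp (AddMonoidHom.mulLeft (s.ψ s.τ)))
    have h1 := hn h hh
    rw [hχh, smul_zero] at h1
    exact h1
  · have h2 := hx.2
    rw [pow_one] at h2
    exact h2

end Fermat.Agent.S56.SS
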