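/-
S56, W4 case C, block KT, ASSEMBLY (helper82): `FieldTProp p` from the leaves
`KTBridgeProp`, `KTFrobProp`, `EStatement`, `EtaStatement` (and `ktCocProp`).
-/
import Fermat.Agent.S56.W4.C.KT.AsmSharp

set_option autoImplicit false

namespace Fermat.Agent.S56.SS

open Fermat.Agent.F4 ExtCitation Fermat.Agent.FFL Fermat.Agent.FFL.FB

local notation "Kb" => AlgebraicClosure ℚ
local notation "GK" => (AlgebraicClosure ℚ ≃ₐ[ℚ] AlgebraicClosure ℚ)

variable {p : ℕ} [Fact p.Prime] {k : Type} [Field k] {ρbar : ResidualGaloisRep k}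

/-- The cyclotomic exponent of `τ` and the determinant. -/
theorem exists_cyc_tau (s : SSStruct p ρbar)
    (hdet : (GaloisRepAdic.ofResidualGaloisRep ρbar).DetIsCyclotomic p) :
    ∃ w : ℕ, s.τ (zetaP p) = zetaP p ^ w ∧ (w : k) = (s.ψ s.τ) ^ (p + 1) := by
  obtain ⟨w, hw⟩ := Fermat.Agent.S59.SOArith.exists_cycExp p s.τ 1
  have hw' : ∀ μ : Kb, μ ^ p = 1 → s.τ μ = μ ^ w := fun μ hμ => hw μ (by rwa [pow_one])
  refine ⟨w, hw' _ (zetaP_spec p).pow_eq_one, ?_⟩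
  rw [← Fermat.Agent.S56.arch_det_eq p ρbar hdet s.τ w hw', det_rho_inertia s s.τ_mem]

/-- A vanishing character is good. -/
theorem goodChar_of_vanish (s : SSStruct p ρbar) (χ : GK → ZMod p)
    (h : ∀ γ ∈ I1 s, χ γ = 0) : GoodChar s χ := by
  have hp : p.Prime := Fact.out
  refine ⟨1, one_ne_zero, fun γ hγ => ?_, ?_⟩
  · rw [h γ hγ, ZMod.val_zero, pow_zero, map_one, one_mul]
  · unfold ValGE
    rw [sub_self, zero_pow (Nat.mul_ne_zero hp.ne_zero (by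
      have := hp.two_le
      have h4 : p ^ 2 = p * p := sq p
      have h6 : p * p ≥ 2 * p := Nat.mul_le_mul_right p this
      omega)), zero_div]
    exact zero_mem _

/-- The quadratic relation for the off-diagonal entries. -/
theorem offdiag_quad (s : SSStruct p ρbar) (w : ℕ) (hw : (w : k) = (s.ψ s.τ) ^ (p + 1))
    (t n : ℤ) (ht : (t : k) = (s.ψ s.τ) ^ 2 + (s.ψ s.τ) ^ (p * 2))
    (hn : (n : k) = (s.ψ s.τ) ^ (2 * (p + 1))) (i j : Fin 2) (hij : i ≠ j) :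
    ((w : k) * (dco s s.τ j * (dco s s.τ i)⁻¹)) * ((w : k) * (dco s s.τ j * (dco s s.τ i)⁻¹))
      - (t : k) * ((w : k) * (dco s s.τ j * (dco s s.τ i)⁻¹)) + (n : k) = 0 := by
  have hα : s.ψ s.τ ≠ 0 := s.ne_zero
  have hαp : (s.ψ s.τ) ^ p ≠ 0 := pow_ne_zero p hα
  rw [hw, ht, hn]
  fin_cases i <;> fin_cases j
  · exact absurd rfl hij
  · show (s.ψ s.τ ^ (p + 1) * (dco s s.τ 1 * (dco s s.τ 0)⁻¹)) *
        (s.ψ s.τ ^ (p + 1) * (dco s s.τ 1 * (dco s s.τ 0)⁻¹)) -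
      (s.ψ s.τ ^ 2 + s.ψ s.τ ^ (p * 2)) * (s.ψ s.τ ^ (p + 1) * (dco s s.τ 1 * (dco s s.τ 0)⁻¹))
      + s.ψ s.τ ^ (2 * (p + 1)) = 0
    rw [dco_zero, dco_one]
    have h1 : s.ψ s.τ ^ (p + 1) * (s.ψ s.τ ^ p * (s.ψ s.τ)⁻¹) = s.ψ s.τ ^ (p * 2) := by
      rw [eq_comm, ← mul_assoc, eq_mul_inv_iff_mul_eq₀ hα]
      ring
    rw [h1]
    ring
  · show (s.ψ s.τ ^ (p + 1) * (dco s s.τ 0 * (dco s s.τ 1)⁻¹)) *
        (s.ψ s.τ ^ (p + 1) * (dco s s.τ 0 * (dco s s.τ 1)⁻¹)) -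
      (s.ψ s.τ ^ 2 + s.ψ s.τ ^ (p * 2)) * (s.ψ s.τ ^ (p + 1) * (dco s s.τ 0 * (dco s s.τ 1)⁻¹))
      + s.ψ s.τ ^ (2 * (p + 1)) = 0
    rw [dco_zero, dco_one]
    have h1 : s.ψ s.τ ^ (p + 1) * (s.ψ s.τ * (s.ψ s.τ ^ p)⁻¹) = s.ψ s.τ ^ 2 := by
      rw [eq_comm, ← mul_assoc, eq_mul_inv_iff_mul_eq₀ hαp]
      ring
    rw [h1]
    ring
  · exact absurd rfl hij

/-- Integers `t, n` for the off-diagonal quadratic relation. -/
theorem exists_tn_two (s : SSStruct p ρbar) (hpk : (p : k) = 0) :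
    ∃ t n : ℤ, (t : k) = (s.ψ s.τ) ^ 2 + (s.ψ s.τ) ^ (p * 2) ∧
      (n : k) = (s.ψ s.τ) ^ (2 * (p + 1)) := by
  have hα2 : (s.ψ s.τ) ^ (p ^ 2) = s.ψ s.τ := s.fp2 s.τ s.τ_mem
  have h2 : ((s.ψ s.τ) ^ 2) ^ (p ^ 2) = (s.ψ s.τ) ^ 2 := by
    rw [← pow_mul, mul_comm, pow_mul, hα2]
  obtain ⟨t, n, ht, hn⟩ := alpha_quad hpk ((s.ψ s.τ) ^ 2) h2
  refine ⟨t, n, ?_, ?_⟩
  · rw [ht, ← pow_mul, mul_comm 2 p]
  · rw [hn, ← pow_mul]

variable (p)

/-- **KT-ASM**: the field side, from the leaves. -/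
theorem fieldTProp_of (hB : KTBridgeProp p) (hF : KTFrobProp p)
    (hE : ∀ π1 : Kb, IsPi1 p π1 → EStatement p (Pp p) π1)
    (hEta : ∀ π1 : Kb, IsPi1 p π1 → EtaStatement p (Pp p) π1) : FieldTProp p := by
  intro k _ _ ρbar s hp2 hdet c hch hsh i j l
  have hpk : (p : k) = 0 := Fermat.Agent.S56.arch_p_eq_zero p ρbar hdet
  obtain ⟨π1, hπ, hI1, hτ, hsym⟩ := hB k ρbar s hp2 hpk
  obtain ⟨hcoc, hsm, htr⟩ := ktCocProp k ρbar c
  set C : GK → Module.End k ρbar.V :=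
    fun σ => ((c : GQ → ad0 ρbar) σ : ↥(ad0Sub ρbar)).1 with hC
  obtain ⟨w, hwζ, hwk⟩ := exists_cyc_tau s hdet
  by_cases hij : i = j
  · -- diagonal entries: the characters vanish on `I₁`
    subst hij
    obtain ⟨φ, hφD, hφfrob, x, y, hφ0, hφ1⟩ := hF k ρbar s hp2 hpk
    apply goodChar_of_vanish
    intro γ hγ
    have hX := hEta π1 hπ (zetaP p) {χ | ∃ l' : k →+ ZMod p, χ = chiOf s C i i l'} s.τ φ
      (zetaP_spec p)
      (by
        rintro χ ⟨l', rfl⟩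
        exact ⟨isCharOn_chiOf s C hcoc π1 hI1 i i l', isSmoothChar_chiOf s C hsm i i l'⟩)
      (by
        rintro χ ⟨l', rfl⟩ χ' ⟨l'', rfl⟩ n
        refine ⟨l'' - n • l', ?_⟩
        funext g
        show chiOf s C i i l'' g - n • chiOf s C i i l' g = (l'' - n • l') (ent s C i i g)
        rw [AddMonoidHom.sub_apply, AddMonoidHom.smul_apply]
        rfl)
      hτ
      (by
        rintro χ ⟨l', rfl⟩ g hg
        show l' (ent s C i i (s.τ⁻¹ * g * s.τ)) = l' (ent s C i i g)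
        rw [ent_conj s C hcoc i i ((hI1 g).mpr hg) s.τ_mem,
          mul_inv_cancel₀ (dco_ne_zero s s.τ_mem i), one_mul])
      hφD (fun a ha => hφfrob a ha.1)
      (by
        rintro χ ⟨l', rfl⟩ g hg
        show l' (ent s C i i (φ⁻¹ * g * φ)) = -l' (ent s C i i g)
        rw [ent_conj_frob s C hcoc htr i ((hI1 g).mpr hg) φ x y hφ0 hφ1, map_neg])
      (by
        rintro χ ⟨l', rfl⟩
        exact cheapAt_chiOf s C π1 hI1 hch i i l')
      (by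
        rintro χ₁ ⟨l₁, rfl⟩ hgen
        exact sharpAt_chiOf s C hpk π1 hI1 hsh i l₁ (fun l' => hgen _ ⟨l', rfl⟩))
    exact hX (chiOf s C i i l) ⟨l, rfl⟩ γ ((hI1 γ).mp hγ)
  · -- off-diagonal entries
    obtain ⟨t, n, ht, hn⟩ := exists_tn_two s hpk
    obtain ⟨ht', hn'⟩ := hsym 2 t n ht hn
    have hquad := offdiag_quad s w hwk t n ht hn i j hij
    set κ : k := dco s s.τ j * (dco s s.τ i)⁻¹ with hκ
    obtain ⟨β, hβ, hβv⟩ := hE π1 hπ (zetaP p) (chiOf s C i j l) s.τ w t n (zetaP_spec p)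
      (isCharOn_chiOf s C hcoc π1 hI1 i j l) (isSmoothChar_chiOf s C hsm i j l) hτ hwζ
      (by
        intro g hg
        have hgI : g ∈ I1 s := (hI1 g).mpr hg
        have hgI' : s.τ⁻¹ * g * s.τ ∈ I1 s := conj_mem_I1 s hgI s.τ_mem
        have e1 : chiOf s C i j l (s.τ⁻¹ * g * s.τ) = l (κ * ent s C i j g) := by
          show l (ent s C i j (s.τ⁻¹ * g * s.τ)) = _
          rw [ent_conj s C hcoc i j hgI s.τ_mem]
        have e2 : chiOf s C i j l (s.τ⁻¹ * (s.τ⁻¹ * g * s.τ) * s.τ) =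
            l (κ * (κ * ent s C i j g)) := by
          show l (ent s C i j (s.τ⁻¹ * (s.τ⁻¹ * g * s.τ) * s.τ)) = _
          rw [ent_conj s C hcoc i j hgI' s.τ_mem, ent_conj s C hcoc i j hgI s.τ_mem]
        have h3 : (w : k) * ((w : k) * (κ * (κ * ent s C i j g))) -
            (t : k) * ((w : k) * (κ * ent s C i j g)) + (n : k) * ent s C i j g =
            (((w : k) * κ) * ((w : k) * κ) - (t : k) * ((w : k) * κ) + (n : k)) *
              ent s C i j g := by ring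
        have key : (w : ZMod p) * ((w : ZMod p) * l (κ * (κ * ent s C i j g))) -
            t • ((w : ZMod p) * l (κ * ent s C i j g)) + n • l (ent s C i j g) = 0 := by
          rw [← l_natCast_mul, ← l_natCast_mul, ← l_natCast_mul, ← l_intCast_mul,
            ← l_intCast_mul, ← map_sub, ← map_add, h3, hquad, zero_mul, map_zero]
        rw [e1, e2]
        exact key)
      (by
        rw [mul_comm 2 p]
        exact ht')
      (by
        have h4 : 2 * p + 2 = 2 * (p + 1) := by ring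
        rw [h4]
        exact hn')
      (cheapAt_chiOf s C π1 hI1 hch i j l)
    exact ⟨β, hβ.1, fun γ hγ => hβ.2 γ ((hI1 γ).mp hγ), hβv⟩

end Fermat.Agent.S56.SS
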