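/-
S56, W4 case C, block KT, leaf KT-FROB (helper59): some Frobenius element at `P` acts
anti-diagonally in the eigenbasis of inertia of a supersingular structure.

Proof: `ρbar(I)` has order prime to `p` (it is diagonal with entries `ψ, ψ^p`,
`ψ^(p² - 1) = 1`), so tame inertia (`Lib/TameInertia`) gives
`ρbar(φ) ρbar(τ) ρbar(φ)⁻¹ = ρbar(τ)^p` for a Frobenius element `φ`.  Hence `ρbar(φ) b₀` is an
eigenvector of `ρbar(τ)^p` with eigenvalue `ψ(τ)`: it is on the line of `b₁`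
(`ψ(τ)^p ≠ ψ(τ)`); likewise `ρbar(φ) b₁` is on the line of `b₀`.
-/
import Fermat.Agent.S56.W4.C.KT.Defs
import Fermat.Agent.Lib.TameInertia.Local
import Fermat.Agent.S56.W3.TW.Gen
import Fermat.Agent.S56.W3.TW.Asm

set_option autoImplicit false
set_option linter.style.haveILetI false

namespace Fermat.Agent.S56.SS

open Fermat.Agent.F4 ExtCitation Fermat.Agent.FFL Fermat.Agent.FFL.FB Module

local notation "Kb" => AlgebraicClosure ℚ
local notation "GK" => (AlgebraicClosure ℚ ≃ₐ[ℚ] AlgebraicClosure ℚ)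

section Core

variable {k V : Type} [Field k] [AddCommGroup V] [Module k V]

/-- Powers of an endomorphism on an eigenvector. -/
theorem ktf_pow_eigen (g : Module.End k V) {v : V} {α : k} (h : g v = α • v) (n : ℕ) :
    (g ^ n) v = α ^ n • v := by
  induction n with
  | zero => simp
  | succ n ih =>
    rw [pow_succ, Module.End.mul_apply, h, map_smul, ih, smul_smul, pow_succ, mul_comm]

/-- An endomorphism of a plane with an eigenbasis `b₀, b₁` of eigenvalues `μ₀, μ₁`: an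
eigenvector of eigenvalue `μ₁ ≠ μ₀` is on the line of `b₁`. -/
theorem ktf_eigen_line1 (b : Basis (Fin 2) k V) (G : Module.End k V) {μ₀ μ₁ : k}
    (h0 : G (b 0) = μ₀ • b 0) (h1 : G (b 1) = μ₁ • b 1) (hne : μ₀ ≠ μ₁) {v : V}
    (hv : G v = μ₁ • v) : ∃ x : k, v = x • b 1 := by
  refine ⟨b.repr v 1, ?_⟩
  have hsum : v = b.repr v 0 • b 0 + b.repr v 1 • b 1 := by
    conv_lhs => rw [← b.sum_repr v]
    rw [Fin.sum_univ_two]
  have hG : G v = (b.repr v 0 * μ₀) • b 0 + (b.repr v 1 * μ₁) • b 1 := by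
    conv_lhs => rw [hsum]
    rw [map_add, map_smul, map_smul, h0, h1, smul_smul, smul_smul]
  have hc : b.repr (G v) 0 = b.repr v 0 * μ₀ := by
    rw [hG]
    simp
  have hc' : b.repr (G v) 0 = μ₁ * b.repr v 0 := by
    rw [hv]
    simp
  have hz : b.repr v 0 = 0 := by
    have h2 : b.repr v 0 * (μ₀ - μ₁) = 0 := by
      rw [mul_sub, ← hc, hc']
      ring
    rcases mul_eq_zero.1 h2 with h | h
    · exact h
    · exact absurd (sub_eq_zero.1 h) hne
  conv_lhs => rw [hsum]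
  rw [hz, zero_smul, zero_add]

/-- The same for the other line. -/
theorem ktf_eigen_line0 (b : Basis (Fin 2) k V) (G : Module.End k V) {μ₀ μ₁ : k}
    (h0 : G (b 0) = μ₀ • b 0) (h1 : G (b 1) = μ₁ • b 1) (hne : μ₀ ≠ μ₁) {v : V}
    (hv : G v = μ₀ • v) : ∃ x : k, v = x • b 0 := by
  refine ⟨b.repr v 0, ?_⟩
  have hsum : v = b.repr v 0 • b 0 + b.repr v 1 • b 1 := by
    conv_lhs => rw [← b.sum_repr v]
    rw [Fin.sum_univ_two]
  have hG : G v = (b.repr v 0 * μ₀) • b 0 + (b.repr v 1 * μ₁) • b 1 := by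
    conv_lhs => rw [hsum]
    rw [map_add, map_smul, map_smul, h0, h1, smul_smul, smul_smul]
  have hc : b.repr (G v) 1 = b.repr v 1 * μ₁ := by
    rw [hG]
    simp
  have hc' : b.repr (G v) 1 = μ₀ * b.repr v 1 := by
    rw [hv]
    simp
  have hz : b.repr v 1 = 0 := by
    have h2 : b.repr v 1 * (μ₁ - μ₀) = 0 := by
      rw [mul_sub, ← hc, hc']
      ring
    rcases mul_eq_zero.1 h2 with h | h
    · exact h
    · exact absurd (sub_eq_zero.1 h).symm hne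
  conv_lhs => rw [hsum]
  rw [hz, zero_smul, add_zero]

/-- An endomorphism is determined by its values on a basis of a plane. -/
theorem ktf_ext (b : Basis (Fin 2) k V) {f g : Module.End k V} (h0 : f (b 0) = g (b 0))
    (h1 : f (b 1) = g (b 1)) : f = g := by
  apply b.ext
  intro i
  fin_cases i
  · exact h0
  · exact h1

end Core

/-- **KT-FROB**. -/
theorem ktFrobProp (p : ℕ) [Fact p.Prime] : KTFrobProp p := by
  intro k _ _ ρbar s hp2 hpk
  have hp : p.Prime := Fact.out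
  obtain ⟨U, ⟨F, hFfd, hFst, rfl⟩, hU⟩ := Fermat.Agent.S56.exists_level_ρ_eq_one ρbar
  have hnor : F.fixingSubgroup.Normal := hFst.normal_fixingSubgroup
  let χ : GK →* (Module.End k ρbar.V)ˣ := ρbar.ρ.toHomUnits
  have hχ : ∀ σ : GK, ((χ σ : (Module.End k ρbar.V)ˣ) : Module.End k ρbar.V) = ρbar.ρ σ :=
    fun σ => rfl
  have hker : ∀ γ : GK, (MonoidHom.id GK) γ ∈ F.fixingSubgroup → χ γ = 1 := fun γ hγ =>
    Units.ext (by rw [hχ]; exact hU γ hγ)
  have hA : (Pp p).LiesOverPrime p := Fermat.Agent.S56.primeLocalPlace_liesOverPrime (pPrime p)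
  -- the order of `ρbar γ`, `γ` in inertia, divides `p² - 1`
  have hN : 1 ≤ p ^ 2 := Nat.one_le_pow _ _ hp.pos
  have hψ1 : ∀ γ ∈ Ip p, (s.ψ γ) ^ (p ^ 2 - 1) = 1 := by
    intro γ hγ
    obtain ⟨n, hn⟩ := s.gen γ hγ
    have hne : s.ψ γ ≠ 0 := by
      rw [hn]
      exact pow_ne_zero _ s.ne_zero
    have h1 := s.fp2 γ hγ
    have h2 : s.ψ γ * (s.ψ γ) ^ (p ^ 2 - 1) = s.ψ γ * 1 := by
      rw [← pow_succ', Nat.sub_add_cancel hN, h1, mul_one]
    exact mul_left_cancel₀ hne h2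
  have hpow : ∀ γ ∈ Ip p, (ρbar.ρ γ) ^ (p ^ 2 - 1) = 1 := by
    intro γ hγ
    apply ktf_ext s.b
    · rw [ktf_pow_eigen _ (s.diag0 γ hγ), hψ1 γ hγ, one_smul, Module.End.one_apply]
    · rw [ktf_pow_eigen _ (s.diag1 γ hγ), ← pow_mul, mul_comm, pow_mul, hψ1 γ hγ, one_pow,
        one_smul, Module.End.one_apply]
  have hcop : ∀ γ : GK, (MonoidHom.id GK) γ ∈ Ip p → (orderOf (χ γ)).Coprime p := by
    intro γ hγ
    have h1 : χ γ ^ (p ^ 2 - 1) = 1 := by
      apply Units.ext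
      rw [Units.val_pow_eq_pow_val, hχ, hpow γ hγ]
      rfl
    have hdvd : orderOf (χ γ) ∣ p ^ 2 - 1 := orderOf_dvd_of_pow_eq_one h1
    have hc : (p ^ 2 - 1).Coprime p := by
      rw [Nat.coprime_comm, Nat.Prime.coprime_iff_not_dvd hp]
      intro hd
      have h2 : p ∣ p ^ 2 := dvd_pow_self p (by norm_num)
      have h3 : p ∣ p ^ 2 - (p ^ 2 - 1) := Nat.dvd_sub h2 hd
      have h4 : p ^ 2 - (p ^ 2 - 1) = 1 := by
        generalize p ^ 2 = N at hN
        omega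
      rw [h4] at h3
      exact hp.one_lt.ne' (Nat.dvd_one.1 h3)
    exact Nat.Coprime.coprime_dvd_left hdvd hc
  obtain ⟨-, hfrob⟩ := Fermat.Agent.TameInertia.tame_inertia_hom
    (MonoidHom.id GK) χ F hFfd hnor hker p hp (Pp p) hA hcop
  obtain ⟨φ, hφ⟩ := Fermat.Agent.S56.TWGen.exists_isFrobeniusAt (Pp p) p hp hA
  have hconj := hfrob φ hφ s.τ s.τ_mem
  have hconj' : ρbar.ρ φ * ρbar.ρ s.τ * ρbar.ρ φ⁻¹ = ρbar.ρ s.τ ^ p := by
    have := congrArg Units.val hconj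
    rw [hχ, map_mul, map_mul] at this
    rw [this]
    rfl
  have hinv : ρbar.ρ φ⁻¹ * ρbar.ρ φ = 1 := by rw [← map_mul, inv_mul_cancel, map_one]
  -- `g ^ p (h v) = h (g v)`
  have hgp : ∀ v : ρbar.V, (ρbar.ρ s.τ ^ p) (ρbar.ρ φ v) = ρbar.ρ φ (ρbar.ρ s.τ v) := by
    intro v
    rw [← hconj']
    simp only [Module.End.mul_apply]
    have := congrArg (fun f : Module.End k ρbar.V => f v) hinv
    simp only [Module.End.mul_apply, Module.End.one_apply] at this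
    rw [this]
  -- the eigenvalues of `g ^ p`
  have hτ2 : (s.ψ s.τ) ^ (p ^ 2) = s.ψ s.τ := s.fp2 s.τ s.τ_mem
  have hne : (s.ψ s.τ) ^ p ≠ s.ψ s.τ := by
    intro h
    have h1 : s.ψ s.τ * (s.ψ s.τ) ^ (p - 1) = s.ψ s.τ * 1 := by
      rw [← pow_succ', Nat.sub_add_cancel hp.one_le, h, mul_one]
    have h2 : (s.ψ s.τ) ^ (p - 1) = 1 := mul_left_cancel₀ s.ne_zero h1
    have h3 := s.ord (p - 1) (by have := hp.two_le; omega) h2
    have h4 : p < p ^ 2 := by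
      have := hp.two_le
      nlinarith
    have h5 := hp.two_le
    generalize p ^ 2 = N at h3 h4
    omega
  have e0 : (ρbar.ρ s.τ ^ p) (s.b 0) = (s.ψ s.τ) ^ p • s.b 0 :=
    ktf_pow_eigen _ (s.diag0 s.τ s.τ_mem) p
  have e1 : (ρbar.ρ s.τ ^ p) (s.b 1) = s.ψ s.τ • s.b 1 := by
    rw [ktf_pow_eigen _ (s.diag1 s.τ s.τ_mem) p, ← pow_mul, ← pow_two, hτ2]
  refine ⟨φ, hφ.mem_decompositionSubgroup, fun a ha =>
    Fermat.Agent.TameInertia.frob_sub_pow_mem_nonunits (Pp p) φ p hφ ha, ?_⟩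
  have k0 : (ρbar.ρ s.τ ^ p) (ρbar.ρ φ (s.b 0)) = s.ψ s.τ • ρbar.ρ φ (s.b 0) := by
    rw [hgp, s.diag0 s.τ s.τ_mem, map_smul]
  have k1 : (ρbar.ρ s.τ ^ p) (ρbar.ρ φ (s.b 1)) = (s.ψ s.τ) ^ p • ρbar.ρ φ (s.b 1) := by
    rw [hgp, s.diag1 s.τ s.τ_mem, map_smul]
  obtain ⟨x, hx⟩ := ktf_eigen_line1 s.b (ρbar.ρ s.τ ^ p) e0 e1 hne k0
  obtain ⟨y, hy⟩ := ktf_eigen_line0 s.b (ρbar.ρ s.τ ^ p) e0 e1 hne k1
  exact ⟨x, y, hx, hy⟩

end Fermat.Agent.S56.SS
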