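/-
S56, W4 case C, block KT, FINAL WIRING (helper82): `FieldTProp p` from the remaining leaf
`KTBridgeProp p` (KT-BRIDGE); everything else is on main.
-/
import Fermat.Agent.S56.W4.C.KT.Asm
import Fermat.Agent.S56.W4.C.KT.Frob
import Fermat.Agent.S56.W3.SO.Place
import Fermat.Agent.Lib.FFL.FB.ELine
import Fermat.Agent.Lib.FFL.FB.EtaLine
import Fermat.Agent.Lib.FFL.FB.KumExist
import Fermat.Agent.Lib.FFL.FB.KumRel
import Fermat.Agent.Lib.FFL.FB.KumUniq
import Fermat.Agent.Lib.FFL.FB.KumGood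
import Fermat.Agent.Lib.FFL.FB.CycTame
import Fermat.Agent.Lib.FFL.FB.Depth
import Fermat.Agent.Lib.FFL.FB.Unit
import Fermat.Agent.Lib.FFL.FB.Kummer

set_option autoImplicit false

namespace Fermat.Agent.S56.SS

open Fermat.Agent.F4 ExtCitation Fermat.Agent.FFL Fermat.Agent.FFL.FB

local notation "Kb" => AlgebraicClosure ℚ
local notation "GK" => (AlgebraicClosure ℚ ≃ₐ[ℚ] AlgebraicClosure ℚ)

/-- **Block KT**, from KT-KUM and KT-BRIDGE. -/
theorem fieldTProp_of_kum_bridge (p : ℕ) [Fact p.Prime] (hKum : KumStatement)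
    (hB : KTBridgeProp p) : FieldTProp p := by
  have hp : p.Prime := Fact.out
  by_cases hp2 : p = 2
  · intro k _ _ ρbar s h
    exact absurd hp2 h
  have hP : (Pp p).LiesOverPrime p := Fermat.Agent.S56.SO.so_liesOver p
  have hKE : ∀ π1 : Kb, IsPi1 p π1 → KumExistStatement p (Pp p) π1 := fun π1 hπ =>
    kumExist hp hP hπ hKum (u6 (unitSetting_stabI hp hP hπ))
  have hKR : ∀ π1 : Kb, IsPi1 p π1 → KumRelStatement p (Pp p) π1 := fun π1 hπ =>
    kumRel hp (u1a (unitSetting_stabI hp hP hπ)) (u3 (unitSetting_stabI hp hP hπ))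
      (u5 (unitSetting_stabI hp hP hπ)) (kumConj hp hp2 hP hπ)
  refine fieldTProp_of p hB (ktFrobProp p) (fun π1 hπ => ?_) (fun π1 hπ => ?_)
  · exact eLine hp hp2 hP hπ (hKE π1 hπ) (depth hp hP hπ) (depthNU hp hP hπ) (hKR π1 hπ)
      (goodOfLevel hp hP hπ)
  · exact etaLine hp hp2 hP hπ (u1a (unitSetting_stabI hp hP hπ)) (hKE π1 hπ)
      (kumUnique hp hp2 hP hπ (u1a (unitSetting_stabI hp hP hπ))
        (u3 (unitSetting_stabI hp hP hπ))) (hKR π1 hπ) (cycTame hp hP hπ)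
      (depth hp hP hπ) (depthNU hp hP hπ)

/-- **Block KT**, from KT-BRIDGE. -/
theorem fieldTProp_of_bridge (p : ℕ) [Fact p.Prime] (hB : KTBridgeProp p) : FieldTProp p :=
  fieldTProp_of_kum_bridge p kum hB

end Fermat.Agent.S56.SS
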