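/-
S56, W4 case C, block KT CLOSED (sub-architect helper91): `fieldTProp : FieldTProp p`, unconditional.
Leaves: BRIDGE (helper87), FROB (helper59), COC + ASM + wiring (helper82), UNIT + KUM (helper91),
KumExist (helper50), KumUniq/KumConj + CycTame (helper78), KumRel + KumGood + Depth (helper70),
E-line (helper41), Eta-line (helper71).
-/
import Fermat.Agent.S56.W4.C.KT.Final
import Fermat.Agent.S56.W4.C.KT.Bridge

set_option autoImplicit false

namespace Fermat.Agent.S56.SS

/-- **Block KT** (field side, T), unconditional. -/
theorem fieldTProp (p : ℕ) [Fact p.Prime] : FieldTProp p :=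
  fieldTProp_of_bridge p (ktBridgeProp p)

end Fermat.Agent.S56.SS
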